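import Fermat.Agent.LT.T7.H616.ClassModelSpec

/-!
# Row LT, tower T7, node T7.L2.2.N.1 `ClassModelC`, leaf CM.11 = `DictC616` (helper440, row 2406)

OFF-MAIN.  On `T7/H616/ClassModelSpec.lean` of helper616 (commit 6a81e5a09, sha256
8568bae74116f37c), imported as it is.

    dictC_of440 : StabGC616 K K' → StabSC616 K K' → DictC616 K K'

`DictC616` is stated with `restr616`, which is `0` when the operator does not preserve the class
space; so the two stability leaves CM.03 and CM.04 are hypotheses here (they are hypotheses of the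
top `classModelC_of616` as well, so nothing is lost).

Proof.  By CM.03 and CM.04 the two restrictions are genuine restrictions.  The family
`(q j)_{j ∈ J}` spans the class space (`IsClassBasisOn.span`) and the coefficient of `q j` in a
linear combination `∑ a_i q_i` is `⟨∑ a_i q_i, q_j⟩ = a_j` (orthonormality; the functions are
continuous and bounded and `μ F < ∞`, so the inner product is linear on finite sums).  Hence the
family is a basis and the trace of an endomorphism `T` is `∑_j ⟨T q_j, q_j⟩`.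
-/

set_option autoImplicit false

open AutomorphicForm IsDedekindDomain NumberField MeasureTheory
open scoped ComplexConjugate

noncomputable section

namespace Fermat.Agent.LT.T7.H440

open Fermat.Agent.LT.H556 Fermat.Agent.LT.H556.A0 Fermat.Agent.LT.T7 Fermat.Agent.LT.T7.SU736
  Fermat.Agent.LT.T7.CM616

attribute [local instance] Fermat.Agent.LT.T5.instMeasurableSpaceG

/-! ## 1. Linear algebra: the trace in a spanning family with a dual family -/

/-- If `b` spans `V` and `c j (∑ a_i b_i) = a_j`, then `tr T = ∑_j c_j (T b_j)`. -/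
theorem trace_eq_sum_dual440 {V : Type*} [AddCommGroup V] [Module ℂ V] {ι : Type*} [Fintype ι]
    [DecidableEq ι] (b : ι → V) (c : ι → V → ℂ)
    (hc : ∀ (a : ι → ℂ) (j : ι), c j (∑ i, a i • b i) = a j)
    (hspan : ∀ v : V, ∃ a : ι → ℂ, v = ∑ i, a i • b i) (T : Module.End ℂ V) :
    LinearMap.trace ℂ V T = ∑ j, c j (T (b j)) := by
  have hli : LinearIndependent ℂ b := by
    rw [Fintype.linearIndependent_iff]
    intro a ha j
    have h1 := hc a j
    rw [ha] at h1
    have h0 := hc (fun _ => 0) j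
    simp only [zero_smul, Finset.sum_const_zero] at h0
    rw [← h1, h0]
  have hsp : ⊤ ≤ Submodule.span ℂ (Set.range b) := by
    intro v _
    obtain ⟨a, rfl⟩ := hspan v
    exact Submodule.sum_mem _ fun i _ =>
      Submodule.smul_mem _ _ (Submodule.subset_span ⟨i, rfl⟩)
  have hB : ∀ i, Module.Basis.mk hli hsp i = b i := fun i => Module.Basis.mk_apply hli hsp i
  rw [LinearMap.trace_eq_matrix_trace ℂ (Module.Basis.mk hli hsp), Matrix.trace]
  refine Finset.sum_congr rfl fun j _ => ?_
  rw [Matrix.diag_apply, LinearMap.toMatrix_apply, hB j]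
  have hv : T (b j) = ∑ i, ((Module.Basis.mk hli hsp).repr (T (b j)) i) • b i := by
    conv_lhs => rw [← (Module.Basis.mk hli hsp).sum_repr (T (b j))]
    simp only [hB]
  conv_rhs => rw [hv]
  rw [hc]

/-! ## 2. The inner product on finite sums -/

section Inner

variable {K : Type} [Field K] [NumberField K]

/-- The product of two bounded continuous functions is integrable on the fundamental domain. -/
theorem integrableOn_mul_conj440 {μ : Measure (G K)} {F : Set (G K)} (hF : T5.IsFrame μ F)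
    {e f : G K → ℂ} (he : Continuous e) (hf : Continuous f) (heb : ∃ C : ℝ, ∀ g, ‖e g‖ ≤ C)
    (hfb : ∃ C : ℝ, ∀ g, ‖f g‖ ≤ C) : IntegrableOn (fun x => e x * conj (f x)) F μ := by
  have : BorelSpace (G K) := ⟨rfl⟩
  obtain ⟨C, hC⟩ := heb
  obtain ⟨C', hC'⟩ := hfb
  refine Measure.integrableOn_of_bounded (M := C * C') hF.finite.ne
    (he.mul (Complex.continuous_conj.comp hf)).aestronglyMeasurable ?_
  refine Filter.Eventually.of_forall (fun x => ?_)
  rw [norm_mul, RCLike.norm_conj]
  exact mul_le_mul (hC x) (hC' x) (norm_nonneg _) ((norm_nonneg _).trans (hC x))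

/-- The inner product is linear on finite sums of bounded continuous functions. -/
theorem innerD_sum440 {μ : Measure (G K)} {F : Set (G K)} (hF : T5.IsFrame μ F) {ι : Type*}
    [Fintype ι] (q : ι → G K → ℂ) (hq : ∀ i, Continuous (q i))
    (hqb : ∀ i, ∃ C : ℝ, ∀ g, ‖q i g‖ ≤ C) {f : G K → ℂ} (hf : Continuous f)
    (hfb : ∃ C : ℝ, ∀ g, ‖f g‖ ≤ C) (a : ι → ℂ) :
    T5.innerD μ F (fun x => ∑ i, a i * q i x) f = ∑ i, a i * T5.innerD μ F (q i) f := by
  unfold T5.innerD
  have h1 : (fun x => (∑ i, a i * q i x) * conj (f x))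
      = fun x => ∑ i, a i * (q i x * conj (f x)) := by
    funext x
    rw [Finset.sum_mul]
    exact Finset.sum_congr rfl fun i _ => mul_assoc _ _ _
  rw [h1, integral_finsetSum]
  · exact Finset.sum_congr rfl fun i _ => integral_const_mul _ _
  · intro i _
    exact (integrableOn_mul_conj440 hF (hq i) hf (hqb i) hfb).const_mul (a i)

end Inner

/-! ## 3. The leaf -/

section Leaf

variable (K K' : Type) [Field K] [NumberField K] [Field K'] [NumberField K'] [Algebra K K']

/-- A linear map which maps eigenfunctions to eigenfunctions preserves the class space. -/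
theorem mem_cls_of_map440 {K' : Type} [Field K'] [NumberField K'] {𝔫 : Ideal (𝓞 K')} {r : G K'}
    {l : ℕ} {o : ℕ → HeightOneSpectrum (𝓞 K')} {C : EigData K'}
    (f : (G K' → ℂ) →ₗ[ℂ] (G K' → ℂ))
    (hf : ∀ ψ, IsEigFn 𝔫 r l o ψ C → IsEigFn 𝔫 r l o (f ψ) C) :
    ∀ ψ ∈ classSp616 𝔫 r l o C, f ψ ∈ classSp616 𝔫 r l o C := by
  intro ψ hψ
  unfold classSp616 at hψ ⊢
  induction hψ using Submodule.span_induction with
  | mem x hx => exact Submodule.subset_span (hf x hx)
  | zero => rw [map_zero]; exact Submodule.zero_mem _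
  | add x y _ _ hx hy => rw [map_add]; exact Submodule.add_mem _ hx hy
  | smul c x _ hx => rw [map_smul]; exact Submodule.smul_mem _ c hx

/-- **LEAF CM.11 = DICT**, from the stability leaves CM.03 and CM.04. -/
theorem dictC_of440 (hG : StabGC616 K K') (hS : StabSC616 K K') : DictC616 K K' := by
  intro ℓ Φ Dt hctx g Hg hbad hsys q J hq
  have hF : T5.IsFrame Dt.R'.μ Dt.R'.F := (hctx.data.comp g hbad).frame'.frame
  have hGp : ∀ ψ ∈ cls616 Dt ℓ Φ, cosetLin616 Hg ψ ∈ cls616 Dt ℓ Φ :=
    mem_cls_of_map440 (cosetLin616 Hg) (fun ψ hψ => hG ℓ Φ Dt hctx g Hg hbad hsys ψ hψ)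
  have hSp : ∀ ψ ∈ cls616 Dt ℓ Φ, rsigLin616 Dt.s ψ ∈ cls616 Dt ℓ Φ :=
    mem_cls_of_map440 (rsigLin616 Dt.s) (fun ψ hψ => (hS ℓ Φ Dt hctx ψ hψ).1)
  have hmem : ∀ j : J, q j ∈ cls616 Dt ℓ Φ := fun j =>
    Submodule.subset_span (hq.eig j j.2)
  have hcont : ∀ j : J, Continuous (q j) := fun j => (hq.eig j j.2).inv.cusp.cont
  have hbdd : ∀ j : J, ∃ C : ℝ, ∀ x, ‖q j x‖ ≤ C := fun j => (hq.eig j j.2).inv.cusp.bdd
  -- the family spans
  have hle : cls616 Dt ℓ Φ ≤ Submodule.span ℂ (Set.range (fun j : J => q j)) := by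
    unfold cls616 classSp616
    rw [Submodule.span_le]
    intro ψ hψ
    obtain ⟨a, ha⟩ := hq.span ψ hψ
    rw [SetLike.mem_coe, Submodule.mem_span_range_iff_exists_fun]
    refine ⟨fun j => a j, ?_⟩
    funext x
    rw [ha x, Finset.sum_apply, ← Finset.sum_coe_sort J (fun j => a j * q j x)]
    rfl
  -- the operator of the model
  have hval : ∀ v : cls616 Dt ℓ Φ,
      (((restr616 (cls616 Dt ℓ Φ) (cosetLin616 Hg) * sOp616 Dt ℓ Φ) v : cls616 Dt ℓ Φ) :
        G K' → ℂ) = cosetOp Hg (T5.Rsig Dt.s v) := by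
    intro v
    rw [Module.End.mul_apply]
    unfold sOp616 restr616
    rw [dif_pos hGp, dif_pos hSp]
    rfl
  -- the abstract trace formula
  have key := trace_eq_sum_dual440 (V := cls616 Dt ℓ Φ) (ι := J)
    (fun j => (⟨q j, hmem j⟩ : cls616 Dt ℓ Φ))
    (fun j v => T5.innerD Dt.R'.μ Dt.R'.F (v : G K' → ℂ) (q j)) ?_ ?_
    (restr616 (cls616 Dt ℓ Φ) (cosetLin616 Hg) * sOp616 Dt ℓ Φ)
  · rw [key]
    unfold twTrace
    rw [← Finset.sum_coe_sort]
    refine Finset.sum_congr rfl fun j _ => ?_
    rw [hval]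
  · intro a j
    have h1 : ((∑ i, a i • (⟨q i, hmem i⟩ : cls616 Dt ℓ Φ) : cls616 Dt ℓ Φ) : G K' → ℂ)
        = fun x => ∑ i : J, a i * q i x := by
      funext x
      rw [Submodule.coe_sum, Finset.sum_apply]
      rfl
    simp only [h1]
    rw [innerD_sum440 hF (fun i : J => q i) hcont hbdd (hcont j) (hbdd j) a]
    rw [Finset.sum_eq_single j]
    · rw [hq.norm j j.2, mul_one]
    · intro i _ hij
      rw [hq.orth i i.2 j j.2 (fun h => hij (Subtype.ext h)), mul_zero]
    · intro h
      exact absurd (Finset.mem_univ j) h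
  · intro v
    obtain ⟨a, ha⟩ := (Submodule.mem_span_range_iff_exists_fun ℂ).1 (hle v.2)
    refine ⟨a, Subtype.ext ?_⟩
    rw [← ha, Submodule.coe_sum]
    rfl

end Leaf

end Fermat.Agent.LT.T7.H440

end
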