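import Mathlib
import Fermat.Agent.LT.T5.H599.Diag
import Fermat.Agent.LT.T7.H193.KillSpec

/-!
# Row LT, tower T7, node T7.L2.1 `SupplyC`, leaf KILL.3 = `NullC` (helper440, registry row 2197)

OFF-MAIN.  `nullC440 (K) : H193.NullC K`, unconditional, VERBATIM on `T7/H193/KillSpec.lean` of
helper193 (commit 4a1c7c2bb, sha256 2cb0a205bd364545).  Asset: `T5/H599/Diag.lean` of helper599
(`lintegral_unfold599`, byte-identical copy).

Proof.  `‖e‖² ` is bounded and continuous, `μ F < ∞`, so `∫_F ‖e‖² = 0` gives `e = 0` almost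
everywhere on `F`; `e` is invariant under `γ rⁿ` (`r` is central), so by the unfolding over the
fundamental domain `∫⁻ ‖e‖ dμ = ∑_p ∫⁻_F ‖e‖ dμ = 0`: `e = 0` almost everywhere, hence everywhere
(`e` is continuous and `μ` is a Haar measure).  Then `R(φ) e = 0`.
-/

set_option autoImplicit false

open IsDedekindDomain NumberField MeasureTheory Filter
open scoped ComplexConjugate

noncomputable section

namespace Fermat.Agent.LT.T7.H440

open Fermat.Agent.LT.H556 Fermat.Agent.LT.H556.A0 Fermat.Agent.LT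

attribute [local instance] Fermat.Agent.LT.T5.instMeasurableSpaceG

/-- Right invariance under `r` gives right invariance under the powers of `r`. -/
theorem right_zpow_inv440 {Γ : Type*} [Group Γ] {α : Type*} (e : Γ → α) (r : Γ)
    (h : ∀ x, e (x * r) = e x) (n : ℤ) : ∀ x : Γ, e (x * r ^ n) = e x := by
  refine Int.induction_on n ?_ ?_ ?_
  · intro x
    rw [zpow_zero, mul_one]
  · intro k ih x
    rw [zpow_add_one, ← mul_assoc, h, ih]
  · intro k ih x
    rw [zpow_sub_one, ← mul_assoc]
    have h1 := h (x * r ^ (-(k : ℤ)) * r⁻¹)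
    rw [inv_mul_cancel_right] at h1
    rw [← h1, ih]

theorem nullC440 (K : Type) [Field K] [NumberField K] : H193.NullC K := by
  intro hT1 R hR e hcont hbdd hleft hright hnorm φ x
  have hF := hR.frame
  have := hF.haar
  have : BorelSpace (G K) := ⟨rfl⟩
  -- Step 1: `e = 0` almost everywhere on `F`
  have h1 : ∫ x in R.F, ‖e x‖ ^ 2 ∂(R.μ) = 0 := by
    have h : T5.innerD R.μ R.F e e = ((∫ x in R.F, ‖e x‖ ^ 2 ∂(R.μ) : ℝ) : ℂ) := by
      unfold T5.innerD
      rw [← integral_complex_ofReal]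
      refine integral_congr_ae (Eventually.of_forall fun x => ?_)
      simp only [Complex.mul_conj, Complex.normSq_eq_norm_sq]
    rw [h] at hnorm
    exact_mod_cast hnorm
  obtain ⟨C, hC⟩ := hbdd
  have hint : IntegrableOn (fun x => ‖e x‖ ^ 2) R.F R.μ := by
    refine Measure.integrableOn_of_bounded (M := C ^ 2) hF.finite.ne
      (hcont.norm.pow 2).aestronglyMeasurable ?_
    refine Eventually.of_forall (fun x => ?_)
    rw [Real.norm_of_nonneg (by positivity)]
    exact pow_le_pow_left₀ (norm_nonneg _) (hC x) 2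
  have h2 : (fun x => ‖e x‖ ^ 2) =ᵐ[R.μ.restrict R.F] 0 :=
    (integral_eq_zero_iff_of_nonneg (fun x => by positivity) hint).1 h1
  -- Step 2: unfolding
  have h3 : ∫⁻ z in R.F, ‖e z‖ₑ ∂(R.μ) = 0 := by
    rw [lintegral_eq_zero_iff' hcont.enorm.aemeasurable]
    filter_upwards [h2] with z hz
    have hz' : ‖e z‖ ^ 2 = 0 := hz
    have hz'' : e z = 0 := by
      have := pow_eq_zero_iff (two_ne_zero) |>.1 hz'
      exact norm_eq_zero.1 this
    simp [hz'']
  have hinv : ∀ (p : T5.H599.Gam599 K) (z : G K), e (T5.H599.iota599 hR.ray p * z) = e z := by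
    intro p z
    rw [T5.H599.iota_apply599, mul_assoc, hleft, T5.H599.zpow_commute599 hR.ray]
    exact right_zpow_inv440 e R.r hright _ z
  have h4 : ∫⁻ z, ‖e z‖ₑ ∂(R.μ) = 0 := by
    rw [T5.H599.lintegral_unfold599 hT1.adNorm hF hR.ray]
    have h : ∀ p : T5.H599.Gam599 K,
        ∫⁻ z in R.F, ‖e (T5.H599.iota599 hR.ray p * z)‖ₑ ∂(R.μ) = 0 := by
      intro p
      simp_rw [hinv p]
      exact h3
    simp only [h, tsum_zero]
  -- Step 3: `e = 0`
  have h5 : e =ᵐ[R.μ] 0 := by
    have h := (lintegral_eq_zero_iff' hcont.enorm.aemeasurable).1 h4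
    filter_upwards [h] with z hz
    simpa using hz
  have h6 : e = 0 := (hcont.ae_eq_iff_eq R.μ continuous_zero).1 h5
  -- Step 4
  unfold T5.Rconv
  simp [h6]

end Fermat.Agent.LT.T7.H440
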